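import Mathlib
import Fermat.Prelude.Def_FLTPrelim_FreyPackage

/-!
# Frey packages from counterexamples

A nontrivial solution of exponent a prime `p ≥ 5`, normalised by signs, a common factor and parity.
-/

namespace Fermat.Agent.Basic

/-- A primitive zero-sum triple with even middle entry gives a Frey package. -/
theorem nonempty_freyPackage_of_even {x y z : ℤ} {p : ℕ} (pp : p.Prime) (hp5 : 5 ≤ p)
    (hx : x ≠ 0) (hy : y ≠ 0) (hz : z ≠ 0) (hco : IsCoprime x y) (hy2 : Even y)
    (H : x ^ p + y ^ p + z ^ p = 0) : Nonempty FreyPackage := by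
  have hodd : Odd p := pp.odd_of_ne_two (by omega)
  have hx2 : ¬ Even x := fun h => by
    have := hco.isUnit_of_dvd' h.two_dvd hy2.two_dvd
    norm_num [Int.isUnit_iff] at this
  have hmod : x % 4 = 1 ∨ x % 4 = 3 := by
    rw [Int.even_iff] at hx2; omega
  have key : ∀ a b c : ℤ, a ≠ 0 → b ≠ 0 → c ≠ 0 → IsCoprime a b → Even b → a % 4 = 3 →
      a ^ p + b ^ p = c ^ p → Nonempty FreyPackage := by
    intro a b c ha hb hc hab hb2 ha4 he
    refine ⟨⟨a, b, c, ha, hb, hc, p, pp, hp5, he, ?_, ?_, ?_⟩⟩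
    · rw [Int.isCoprime_iff_gcd_eq_one] at hab
      simp [← Int.coe_gcd, hab]
    · have h : (4 : ℤ) ∣ a - 3 := by omega
      have := (ZMod.intCast_zmod_eq_zero_iff_dvd (a - 3) 4).2 (by exact_mod_cast h)
      rwa [Int.cast_sub, sub_eq_zero, Int.cast_ofNat] at this
    · exact (ZMod.intCast_zmod_eq_zero_iff_dvd b 2).2 (by exact_mod_cast hb2.two_dvd)
  rcases hmod with h | h
  · refine key (-x) (-y) z (neg_ne_zero.2 hx) (neg_ne_zero.2 hy) hz hco.neg_neg hy2.neg
      (by omega) ?_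
    rw [hodd.neg_pow, hodd.neg_pow]; linarith
  · refine key x y (-z) hx hy (neg_ne_zero.2 hz) hco hy2 h ?_
    rw [hodd.neg_pow]; linarith

/-- A nontrivial solution of exponent a prime `p ≥ 5` gives a Frey package. -/
theorem nonempty_freyPackage {a b c : ℤ} (ha : a ≠ 0) (hb : b ≠ 0) (hc : c ≠ 0) {p : ℕ}
    (pp : p.Prime) (hp5 : 5 ≤ p) (H : a ^ p + b ^ p = c ^ p) : Nonempty FreyPackage := by
  have hodd : Odd p := pp.odd_of_ne_two (by omega)
  set g := (Int.gcd a b : ℤ) with hg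
  have hg0 : g ≠ 0 := by simp [hg, ha]
  obtain ⟨x, hx⟩ : g ∣ a := Int.gcd_dvd_left a b
  obtain ⟨y, hy⟩ : g ∣ b := Int.gcd_dvd_right a b
  obtain ⟨z, hz⟩ : g ∣ c := by
    rw [← Int.pow_dvd_pow_iff pp.pos.ne', ← H]
    exact dvd_add (pow_dvd_pow_of_dvd ⟨x, hx⟩ p) (pow_dvd_pow_of_dvd ⟨y, hy⟩ p)
  have hx0 : x ≠ 0 := fun h => ha (by simp [hx, h])
  have hy0 : y ≠ 0 := fun h => hb (by simp [hy, h])
  have hz0 : z ≠ 0 := fun h => hc (by simp [hz, h])
  have he : x ^ p + y ^ p + (-z) ^ p = 0 := by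
    apply mul_left_cancel₀ (pow_ne_zero p hg0)
    rw [hodd.neg_pow, mul_zero]
    have := H
    rw [hx, hy, hz, mul_pow, mul_pow, mul_pow] at this
    linear_combination this
  have hxy : IsCoprime x y := by
    rw [Int.isCoprime_iff_gcd_eq_one]
    have h1 : Int.gcd a b = g.natAbs * Int.gcd x y := by
      conv_lhs => rw [hx, hy]
      exact Int.gcd_mul_left g x y
    have hgn : g.natAbs = Int.gcd a b := by simp [hg]
    have hpos : Int.gcd a b ≠ 0 := by simp [ha]
    rw [hgn] at h1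
    exact
      (Nat.eq_of_mul_eq_mul_left (Nat.pos_of_ne_zero hpos) (by omega : Int.gcd a b * 1 = _)).symm
  have hxzc : IsCoprime x (-z) := by
    refine (IsCoprime.pow_right_iff pp.pos).1 ?_
    have : (-z) ^ p = -(y ^ p) + x * -(x ^ (p - 1)) := by
      have hp : x ^ p = x * x ^ (p - 1) := by
        rw [← pow_succ']; congr 1; omega
      linear_combination he - hp
    rw [this, IsCoprime.add_mul_left_right_iff, IsCoprime.neg_right_iff]
    exact hxy.pow_right
  by_cases hy2 : Even y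
  · exact nonempty_freyPackage_of_even pp hp5 hx0 hy0 (neg_ne_zero.2 hz0) hxy hy2 he
  by_cases hx2 : Even x
  · exact nonempty_freyPackage_of_even pp hp5 hy0 hx0 (neg_ne_zero.2 hz0) hxy.symm hx2
      (by linarith)
  · have hz2 : Even (-z) := by
      have : Even ((-z) ^ p) := by
        have h1 : (-z) ^ p = -(x ^ p + y ^ p) := by linarith
        rw [h1, even_neg]
        exact ((Int.not_even_iff_odd.1 hx2).pow).add_odd ((Int.not_even_iff_odd.1 hy2).pow)
      exact (Int.even_pow.1 this).1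
    exact nonempty_freyPackage_of_even pp hp5 hx0 (neg_ne_zero.2 hz0) hy0 hxzc hz2 (by linarith)

end Fermat.Agent.Basic
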