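import Mathlib
import Fermat.Prelude.Thm_ModularForm_sturm_bound_Gamma0

/-!
# Weight two at levels one and two

By Sturm's bound there is no nonzero cusp form of weight two on `Γ₀(1)` or `Γ₀(2)`.
-/

open UpperHalfPlane ModularFormClass CongruenceSubgroup

namespace Fermat.Agent.Basic

/-- The index of `Γ₀(2)` is at most three. -/
theorem index_Gamma0_two_le : (Gamma0 2).index ≤ 3 := by
  let B : Subgroup (Matrix.SpecialLinearGroup (Fin 2) (ZMod 2)) :=
    { carrier := {g | g.1 1 0 = 0}
      one_mem' := by simp
      mul_mem' := by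
        intro a b ha hb
        simp only [Set.mem_ofPred_eq] at *
        simp [Matrix.mul_apply, Fin.sum_univ_two, ha, hb]
      inv_mem' := by
        intro a ha
        simp only [Set.mem_ofPred_eq] at *
        rw [Matrix.SpecialLinearGroup.SL2_inv_expl]
        simp [ha] }
  have h : Gamma0 2 = B.comap (Matrix.SpecialLinearGroup.map (Int.castRingHom (ZMod 2))) := by
    ext g; simp [B, Gamma0_mem]
  have hB : B.index = 3 := by
    have h6 : Nat.card (Matrix.SpecialLinearGroup (Fin 2) (ZMod 2)) = 6 := by
      rw [Nat.card_eq_fintype_card]; decide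
    have h2 : Nat.card B = 2 := by
      have : Nat.card B =
          Nat.card {g : Matrix.SpecialLinearGroup (Fin 2) (ZMod 2) // g.1 1 0 = 0} := rfl
      rw [this, Nat.card_eq_fintype_card]; decide
    have := B.index_mul_card
    rw [h6, h2] at this
    omega
  rw [h, Subgroup.index_comap]
  calc _ ≤ B.relIndex ⊤ := Subgroup.relIndex_le_of_le_right le_top (by simp [hB])
    _ = B.index := B.relIndex_top_right
    _ = 3 := hB

/-- No nonzero weight two cusp form when the index is at most five (Sturm). -/
theorem cusp_eq_zero {N : ℕ} [NeZero N] (hN : (Gamma0 N).index ≤ 5)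
    (f : CuspForm (Gamma0 N) 2) : f = 0 := by
  apply CuspForm.toModularFormₗ_injective
  rw [map_zero]
  apply ModularForm.sturm_bound_Gamma0
  intro n hn
  have hn0 : n = 0 := by
    have : ((2:ℤ) * ((Gamma0 N).index : ℤ)).toNat / 12 = 0 := by omega
    omega
  subst hn0
  exact CuspFormClass.qExpansion_coeff_zero f one_pos (by simp)

/-- There is no nonzero weight two cusp form of level one. -/
theorem S2_Gamma0_one (f : CuspForm (Gamma0 1) 2) : f = 0 :=
  cusp_eq_zero (by
    have : Gamma0 1 = ⊤ := by
      ext g; simp [Gamma0_mem, eq_iff_true_of_subsingleton]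
    simp [this]) f

/-- There is no nonzero weight two cusp form of level two. -/
theorem S2_Gamma0_two (f : CuspForm (Gamma0 2) 2) : f = 0 :=
  cusp_eq_zero (index_Gamma0_two_le.trans (by norm_num)) f

end Fermat.Agent.Basic
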